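/-
JT (Jacobian tower), stage T1, node G1a: holomorphic `n`-th roots.
A holomorphic function on a disc with finitely many zeros, all of order divisible by `n`, has a
holomorphic `n`-th root on the disc.
-/
import Mathlib

set_option autoImplicit false

open Complex Metric Set Filter Topology

namespace Fermat.Agent.JT

/-! ### the nonvanishing case: logarithms on a disc -/

theorem nr_exists_root_of_ne_zero {c : ℂ} {r : ℝ} {f : ℂ → ℂ} {n : ℕ} (hn : n ≠ 0)
    (hf : DifferentiableOn ℂ f (ball c r)) (hne : ∀ z ∈ ball c r, f z ≠ 0) :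
    ∃ h : ℂ → ℂ, DifferentiableOn ℂ h (ball c r) ∧ ∀ z ∈ ball c r, h z ^ n = f z := by
  by_cases hr : 0 < r
  · have hc : c ∈ ball c r := mem_ball_self hr
    have hopen : IsOpen (ball c r) := isOpen_ball
    have hdf : DifferentiableOn ℂ (deriv f) (ball c r) := hf.deriv hopen
    have hg : DifferentiableOn ℂ (fun z => deriv f z / f z) (ball c r) := hdf.div hf hne
    obtain ⟨L, hL⟩ := hg.isExactOn_ball
    -- `f * exp (-L)` is constant
    set φ : ℂ → ℂ := fun z => f z * cexp (-L z) with hφ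
    have hφd : ∀ z ∈ ball c r, HasDerivAt φ 0 z := by
      intro z hz
      have h1 : HasDerivAt f (deriv f z) z :=
        (hf.differentiableAt (hopen.mem_nhds hz)).hasDerivAt
      have h2 : HasDerivAt (fun z => cexp (-L z)) (cexp (-L z) * -(deriv f z / f z)) z :=
        ((hL z hz).neg).cexp
      have h3 : HasDerivAt φ
          (deriv f z * cexp (-L z) + f z * (cexp (-L z) * -(deriv f z / f z))) z := h1.mul h2
      have h4 : deriv f z * cexp (-L z) + f z * (cexp (-L z) * -(deriv f z / f z)) = 0 := by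
        have := hne z hz
        field_simp
        ring
      rw [h4] at h3
      exact h3
    have hconst : ∀ z ∈ ball c r, φ z = φ c := by
      intro z hz
      refine hopen.is_const_of_deriv_eq_zero (convex_ball c r).isPreconnected
        (fun w hw => (hφd w hw).differentiableAt.differentiableWithinAt) ?_ hz hc
      intro w hw
      exact (hφd w hw).deriv
    have hC : φ c ≠ 0 := mul_ne_zero (hne c hc) (Complex.exp_ne_zero _)
    obtain ⟨w, hw⟩ := IsAlgClosed.exists_pow_nat_eq (φ c) (Nat.pos_of_ne_zero hn)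
    refine ⟨fun z => w * cexp (L z / n), ?_, ?_⟩
    · intro z hz
      have : DifferentiableAt ℂ L z := (hL z hz).differentiableAt
      exact ((this.div_const _).cexp.const_mul w).differentiableWithinAt
    · intro z hz
      have h1 : f z * cexp (-L z) = φ c := hconst z hz
      have hn' : (n : ℂ) ≠ 0 := Nat.cast_ne_zero.mpr hn
      rw [mul_pow, hw, ← Complex.exp_nat_mul, mul_div_cancel₀ _ hn', ← h1, mul_assoc,
        ← Complex.exp_add, neg_add_cancel, Complex.exp_zero, mul_one]
  · have : ball c r = ∅ := ball_eq_empty.mpr (not_lt.mp hr)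
    exact ⟨fun _ => 0, by simp [this], by simp [this]⟩

/-! ### dividing out a zero -/

/-- the order of `f` at `z₀` is finite and divisible by `n` -/
def nr_OrdDvd (n : ℕ) (f : ℂ → ℂ) (z₀ : ℂ) : Prop :=
  ∃ (k : ℕ) (G : ℂ → ℂ), AnalyticAt ℂ G z₀ ∧ G z₀ ≠ 0 ∧
    ∀ᶠ z in 𝓝 z₀, f z = (z - z₀) ^ (n * k) * G z

theorem nr_exists_div {U : Set ℂ} (hU : IsOpen U) {f : ℂ → ℂ} (hf : DifferentiableOn ℂ f U)
    {a : ℂ} {M : ℕ} {G : ℂ → ℂ} (hG : AnalyticAt ℂ G a)
    (hfG : ∀ᶠ z in 𝓝 a, f z = (z - a) ^ M * G z) :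
    ∃ g : ℂ → ℂ, DifferentiableOn ℂ g U ∧ (∀ z, f z = (z - a) ^ M * g z) ∧ g a = G a ∧
      g =ᶠ[𝓝 a] G := by
  classical
  set g : ℂ → ℂ := fun z => if z = a then G a else f z / (z - a) ^ M with hg
  have hga : g a = G a := by simp [hg]
  have hgG : g =ᶠ[𝓝 a] G := by
    filter_upwards [hfG] with z hz
    by_cases hza : z = a
    · rw [hza, hga]
    · have h1 : (z - a) ^ M ≠ 0 := pow_ne_zero _ (sub_ne_zero.mpr hza)
      simp only [hg, if_neg hza]
      rw [hz, mul_div_cancel_left₀ _ h1]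
  have hmul : ∀ z, f z = (z - a) ^ M * g z := by
    intro z
    by_cases hza : z = a
    · rw [hza, hga]
      exact hfG.self_of_nhds
    · have h1 : (z - a) ^ M ≠ 0 := pow_ne_zero _ (sub_ne_zero.mpr hza)
      simp only [hg, if_neg hza]
      rw [mul_div_cancel₀ _ h1]
  refine ⟨g, ?_, hmul, hga, hgG⟩
  intro z hz
  by_cases hza : z = a
  · rw [hza]
    exact (hG.differentiableAt.congr_of_eventuallyEq hgG).differentiableWithinAt
  · have h1 : DifferentiableAt ℂ (fun z => f z / (z - a) ^ M) z := by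
      refine (hf.differentiableAt (hU.mem_nhds hz)).div ?_ (pow_ne_zero _ (sub_ne_zero.mpr hza))
      fun_prop
    have h2 : g =ᶠ[𝓝 z] fun z => f z / (z - a) ^ M := by
      filter_upwards [isOpen_ne.mem_nhds hza] with w hw
      simp only [hg, if_neg hw]
    exact (h1.congr_of_eventuallyEq h2).differentiableWithinAt

/-! ### finitely many zeros on a disc -/

theorem nr_exists_root_ball_aux {c : ℂ} {r : ℝ} {n : ℕ} (hn : n ≠ 0) :
    ∀ (m : ℕ) (f : ℂ → ℂ), DifferentiableOn ℂ f (ball c r) →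
      (∀ z ∈ ball c r, nr_OrdDvd n f z) →
      ∀ (hfin : {z | z ∈ ball c r ∧ f z = 0}.Finite), hfin.toFinset.card = m →
      ∃ h : ℂ → ℂ, DifferentiableOn ℂ h (ball c r) ∧ ∀ z ∈ ball c r, h z ^ n = f z := by
  intro m
  induction m with
  | zero =>
    intro f hf _ hfin hcard
    refine nr_exists_root_of_ne_zero hn hf fun z hz h0 => ?_
    have : z ∈ hfin.toFinset := hfin.mem_toFinset.mpr ⟨hz, h0⟩
    rw [Finset.card_eq_zero.mp hcard] at this
    exact absurd this (Finset.notMem_empty z)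
  | succ m ih =>
    intro f hf hord hfin hcard
    have hne : hfin.toFinset.Nonempty := by
      rw [← Finset.card_pos, hcard]; exact Nat.succ_pos m
    obtain ⟨a, ha⟩ := hne
    obtain ⟨haB, hfa⟩ := hfin.mem_toFinset.mp ha
    obtain ⟨k, G, hG, hGa, hfG⟩ := hord a haB
    obtain ⟨g, hgd, hmul, hga, hgG⟩ := nr_exists_div isOpen_ball hf hG hfG
    -- the zero set of `g`
    have hzero : {z | z ∈ ball c r ∧ g z = 0} = {z | z ∈ ball c r ∧ f z = 0} \ {a} := by
      ext z
      simp only [mem_ofPred_eq, Set.mem_sdiff, mem_singleton_iff]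
      constructor
      · rintro ⟨hz, hgz⟩
        refine ⟨⟨hz, by rw [hmul z, hgz, mul_zero]⟩, ?_⟩
        rintro rfl
        exact hGa (hga ▸ hgz)
      · rintro ⟨⟨hz, hfz⟩, hza⟩
        refine ⟨hz, ?_⟩
        rw [hmul z] at hfz
        exact (mul_eq_zero.mp hfz).resolve_left (pow_ne_zero _ (sub_ne_zero.mpr hza))
    have hfin' : {z | z ∈ ball c r ∧ g z = 0}.Finite := by
      rw [hzero]; exact hfin.subset sdiff_subset
    have hcard' : hfin'.toFinset.card = m := by
      have : hfin'.toFinset = hfin.toFinset.erase a := by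
        ext z
        simp only [Set.Finite.mem_toFinset, Finset.mem_erase, hzero, Set.mem_sdiff, mem_singleton_iff]
        tauto
      rw [this, Finset.card_erase_of_mem ha, hcard]
      rfl
    have hord' : ∀ z ∈ ball c r, nr_OrdDvd n g z := by
      intro z₀ hz₀
      by_cases hza : z₀ = a
      · subst hza
        refine ⟨0, g, hG.congr hgG.symm, by rw [hga]; exact hGa, ?_⟩
        filter_upwards with z
        simp
      · obtain ⟨k₀, G₀, hG₀, hG₀z, hfG₀⟩ := hord z₀ hz₀
        refine ⟨k₀, fun z => G₀ z / (z - a) ^ (n * k), ?_, ?_, ?_⟩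
        · refine hG₀.div ?_ (pow_ne_zero _ (sub_ne_zero.mpr hza))
          fun_prop
        · exact div_ne_zero hG₀z (pow_ne_zero _ (sub_ne_zero.mpr hza))
        · filter_upwards [hfG₀, isOpen_ne.mem_nhds hza] with z hz hza'
          have h1 : (z - a) ^ (n * k) ≠ 0 := pow_ne_zero _ (sub_ne_zero.mpr hza')
          have h2 := hmul z
          rw [hz] at h2
          field_simp
          rw [h2]
          ring
    obtain ⟨h, hhd, hh⟩ := ih g hgd hord' hfin' hcard'
    refine ⟨fun z => (z - a) ^ k * h z, ?_, ?_⟩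
    · refine DifferentiableOn.mul ?_ hhd
      fun_prop
    · intro z hz
      rw [mul_pow, hh z hz, hmul z, ← pow_mul, mul_comm k n]

theorem nr_exists_root_ball {c : ℂ} {r : ℝ} {n : ℕ} (hn : n ≠ 0) {f : ℂ → ℂ}
    (hf : DifferentiableOn ℂ f (ball c r)) (hord : ∀ z ∈ ball c r, nr_OrdDvd n f z)
    (hfin : {z | z ∈ ball c r ∧ f z = 0}.Finite) :
    ∃ h : ℂ → ℂ, DifferentiableOn ℂ h (ball c r) ∧ ∀ z ∈ ball c r, h z ^ n = f z :=
  nr_exists_root_ball_aux hn _ f hf hord hfin rfl

end Fermat.Agent.JT
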