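/-
JT (Jacobian tower), stage T1, node G1a: holomorphic `n`-th roots on the upper half plane.
A holomorphic function on `{0 < im z}`, not identically zero, all of whose zeros have order
divisible by `n`, has a holomorphic `n`-th root.
-/
import Mathlib
import Fermat.Agent.JT.Root.Ball

set_option autoImplicit false

open Complex Metric Set Filter Topology

namespace Fermat.Agent.JT

/-- the open upper half plane as a subset of `ℂ` -/
def nr_H : Set ℂ := {z | 0 < z.im}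

theorem nr_isOpen_H : IsOpen nr_H := isOpen_lt continuous_const Complex.continuous_im

theorem nr_convex_H : Convex ℝ nr_H := by
  intro x hx y hy a b ha hb hab
  simp only [nr_H, mem_ofPred_eq] at hx hy ⊢
  simp only [add_im, Complex.smul_im, smul_eq_mul]
  rcases ha.eq_or_lt with h | h
  · have hb1 : b = 1 := by rw [← h] at hab; simpa using hab
    rw [← h, hb1]; simpa using hy
  · have h1 : 0 < a * x.im := mul_pos h hx
    have h2 : 0 ≤ b * y.im := mul_nonneg hb hy.le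
    linarith

/-! ### an exhaustion by discs -/

theorem nr_closedBall_subset {t : ℝ} (ht : 1 < t) :
    closedBall ((t : ℂ) * I) (t - 1 / t) ⊆ nr_H := by
  intro z hz
  rw [mem_closedBall, dist_eq_norm] at hz
  have h1 : |(z - (t : ℂ) * I).im| ≤ ‖z - (t : ℂ) * I‖ := Complex.abs_im_le_norm _
  have h2 : (z - (t : ℂ) * I).im = z.im - t := by simp
  rw [h2] at h1
  have h3 : 0 < 1 / t := by positivity
  have h4 := (abs_le.mp (h1.trans hz)).1
  simp only [nr_H, mem_ofPred_eq]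
  linarith

theorem nr_radius_pos {t : ℝ} (ht : 1 < t) : 0 < t - 1 / t := by
  have h0 : 0 < t := by linarith
  have : 1 / t < 1 := by rw [div_lt_one h0]; exact ht
  linarith

theorem nr_mem_ball {z : ℂ} {t : ℝ} (ht : 1 < t)
    (hzt : z.re ^ 2 + z.im ^ 2 + 2 ≤ 2 * z.im * t) : z ∈ ball ((t : ℂ) * I) (t - 1 / t) := by
  rw [mem_ball, dist_eq_norm]
  have hr := nr_radius_pos ht
  refine lt_of_pow_lt_pow_left₀ 2 hr.le ?_
  rw [Complex.sq_norm, Complex.normSq_apply]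
  have h0 : 0 < t := by linarith
  have h1 : (z - (t : ℂ) * I).re = z.re := by simp
  have h2 : (z - (t : ℂ) * I).im = z.im - t := by simp
  rw [h1, h2]
  have h3 : (t - 1 / t) ^ 2 = t ^ 2 - 2 + (1 / t) ^ 2 := by
    field_simp
    ring
  rw [h3]
  have h4 : 0 < (1 / t) ^ 2 := by positivity
  nlinarith

/-- a radius parameter that works for `z` -/
noncomputable def nr_T (z : ℂ) : ℝ := max 2 ((z.re ^ 2 + z.im ^ 2 + 2) / (2 * z.im))

theorem nr_one_lt_T (z : ℂ) : 1 < nr_T z := lt_of_lt_of_le one_lt_two (le_max_left _ _)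

theorem nr_mem_ball_of_T_le {z : ℂ} (hz : 0 < z.im) {t : ℝ} (ht : nr_T z ≤ t) :
    z ∈ ball ((t : ℂ) * I) (t - 1 / t) := by
  have h1 : 1 < t := lt_of_lt_of_le (nr_one_lt_T z) ht
  refine nr_mem_ball h1 ?_
  have h2 : (z.re ^ 2 + z.im ^ 2 + 2) / (2 * z.im) ≤ t := (le_max_right _ _).trans ht
  rw [div_le_iff₀ (by positivity)] at h2
  linarith

/-! ### finiteness of the zero set on the discs -/

theorem nr_finite_zeros {f : ℂ → ℂ} (hf : DifferentiableOn ℂ f nr_H) {z₁ : ℂ} (hz₁ : z₁ ∈ nr_H)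
    (hfz₁ : f z₁ ≠ 0) {t : ℝ} (ht : 1 < t) :
    {z | z ∈ ball ((t : ℂ) * I) (t - 1 / t) ∧ f z = 0}.Finite := by
  by_contra hinf
  have hinf' : {z | z ∈ ball ((t : ℂ) * I) (t - 1 / t) ∧ f z = 0}.Infinite := hinf
  have hsub : {z | z ∈ ball ((t : ℂ) * I) (t - 1 / t) ∧ f z = 0}
      ⊆ closedBall ((t : ℂ) * I) (t - 1 / t) := fun z hz => ball_subset_closedBall hz.1
  obtain ⟨x, hxK, hx⟩ := hinf'.exists_accPt_of_subset_isCompact
    (isCompact_closedBall _ _) hsub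
  have hxH : x ∈ nr_H := nr_closedBall_subset ht hxK
  have hfreq : ∃ᶠ z in 𝓝[≠] x, f z = 0 := by
    rw [accPt_iff_frequently_nhdsNE] at hx
    exact hx.mono fun z hz => hz.2
  have hfa : AnalyticOnNhd ℂ f nr_H := hf.analyticOnNhd nr_isOpen_H
  have := hfa.eqOn_zero_of_preconnected_of_frequently_eq_zero nr_convex_H.isPreconnected hxH hfreq
  exact hfz₁ (this hz₁)

/-! ### uniqueness of normalised roots -/

theorem nr_root_unique {S : Set ℂ} (hS : IsOpen S) (hSc : IsPreconnected S) {n : ℕ} (hn : n ≠ 0)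
    {h₁ h₂ : ℂ → ℂ} (hd₁ : DifferentiableOn ℂ h₁ S) (hd₂ : DifferentiableOn ℂ h₂ S)
    (hpow : ∀ z ∈ S, h₁ z ^ n = h₂ z ^ n) {z₁ : ℂ} (hz₁ : z₁ ∈ S) (heq : h₁ z₁ = h₂ z₁)
    (hne : h₁ z₁ ≠ 0) : EqOn h₁ h₂ S := by
  have ha₁ : AnalyticOnNhd ℂ h₁ S := hd₁.analyticOnNhd hS
  have ha₂ : AnalyticOnNhd ℂ h₂ S := hd₂.analyticOnNhd hS
  refine ha₁.eqOn_of_preconnected_of_eventuallyEq ha₂ hSc hz₁ ?_
  -- the cofactor `∑ h₁^i h₂^(n-1-i)` does not vanish near `z₁`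
  set q : ℂ → ℂ := fun z => ∑ i ∈ Finset.range n, h₁ z ^ i * h₂ z ^ (n - 1 - i) with hq
  have hc₁ : ContinuousAt h₁ z₁ := (hd₁.differentiableAt (hS.mem_nhds hz₁)).continuousAt
  have hc₂ : ContinuousAt h₂ z₁ := (hd₂.differentiableAt (hS.mem_nhds hz₁)).continuousAt
  have hqc : ContinuousAt q z₁ := by
    simp only [hq]
    exact tendsto_finsetSum _ fun i _ => (hc₁.pow i).mul (hc₂.pow (n - 1 - i))
  have hq1 : q z₁ ≠ 0 := by
    have : q z₁ = n * h₁ z₁ ^ (n - 1) := by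
      simp only [hq, ← heq]
      rw [Finset.sum_congr rfl (g := fun _ => h₁ z₁ ^ (n - 1))]
      · simp
      · intro i hi
        have := Finset.mem_range.mp hi
        rw [← pow_add]
        congr 1
        omega
    rw [this]
    exact mul_ne_zero (Nat.cast_ne_zero.mpr hn) (pow_ne_zero _ hne)
  have hq2 : ∀ᶠ z in 𝓝 z₁, q z ≠ 0 := hqc.eventually_ne hq1
  filter_upwards [hq2, hS.mem_nhds hz₁] with z hz hzS
  have h3 : q z * (h₁ z - h₂ z) = 0 := by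
    have := (Commute.all (h₁ z) (h₂ z)).geom_sum₂_mul n
    simp only [hq]
    rw [this, hpow z hzS, sub_self]
  exact sub_eq_zero.mp ((mul_eq_zero.mp h3).resolve_left hz)

/-! ### gluing -/

theorem nr_exists_normalised_root {n : ℕ} (hn : n ≠ 0) {f : ℂ → ℂ}
    (hf : DifferentiableOn ℂ f nr_H) {z₁ : ℂ} (hz₁ : z₁ ∈ nr_H) (hfz₁ : f z₁ ≠ 0)
    (hord : ∀ z ∈ nr_H, nr_OrdDvd n f z) {w₁ : ℂ} (hw₁ : w₁ ^ n = f z₁) {t : ℝ}
    (ht : nr_T z₁ ≤ t) :
    ∃ h : ℂ → ℂ, DifferentiableOn ℂ h (ball ((t : ℂ) * I) (t - 1 / t)) ∧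
      (∀ z ∈ ball ((t : ℂ) * I) (t - 1 / t), h z ^ n = f z) ∧ h z₁ = w₁ := by
  have h1t : 1 < t := lt_of_lt_of_le (nr_one_lt_T z₁) ht
  have hsub : ball ((t : ℂ) * I) (t - 1 / t) ⊆ nr_H :=
    ball_subset_closedBall.trans (nr_closedBall_subset h1t)
  have hz₁B : z₁ ∈ ball ((t : ℂ) * I) (t - 1 / t) := nr_mem_ball_of_T_le hz₁ ht
  obtain ⟨h₀, hd₀, hp₀⟩ := nr_exists_root_ball hn (hf.mono hsub)
    (fun z hz => hord z (hsub hz)) (nr_finite_zeros hf hz₁ hfz₁ h1t)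
  have h0ne : h₀ z₁ ≠ 0 := by
    intro h0
    have := hp₀ z₁ hz₁B
    rw [h0, zero_pow hn] at this
    exact hfz₁ this.symm
  refine ⟨fun z => w₁ / h₀ z₁ * h₀ z, hd₀.const_mul _, fun z hz => ?_, ?_⟩
  · rw [mul_pow, div_pow, hp₀ z hz, hw₁, hp₀ z₁ hz₁B, div_self hfz₁, one_mul]
  · simp only []
    rw [div_mul_cancel₀ _ h0ne]

/-- **holomorphic `n`-th roots on the upper half plane** -/
theorem nr_exists_root_H {n : ℕ} (hn : n ≠ 0) {f : ℂ → ℂ} (hf : DifferentiableOn ℂ f nr_H)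
    {z₁ : ℂ} (hz₁ : z₁ ∈ nr_H) (hfz₁ : f z₁ ≠ 0) (hord : ∀ z ∈ nr_H, nr_OrdDvd n f z) :
    ∃ h : ℂ → ℂ, DifferentiableOn ℂ h nr_H ∧ ∀ z ∈ nr_H, h z ^ n = f z := by
  classical
  obtain ⟨w₁, hw₁⟩ := IsAlgClosed.exists_pow_nat_eq (f z₁) (Nat.pos_of_ne_zero hn)
  have hw₁ne : w₁ ≠ 0 := by
    rintro rfl
    rw [zero_pow hn] at hw₁
    exact hfz₁ hw₁.symm
  have hroot := fun (t : ℝ) (ht : nr_T z₁ ≤ t) =>
    nr_exists_normalised_root hn hf hz₁ hfz₁ hord hw₁ ht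
  set R : ℝ → ℂ → ℂ := fun t => if ht : nr_T z₁ ≤ t then (hroot t ht).choose else 0 with hR
  have hRd : ∀ t, nr_T z₁ ≤ t → DifferentiableOn ℂ (R t) (ball ((t : ℂ) * I) (t - 1 / t)) := by
    intro t ht
    simp only [hR, dif_pos ht]
    exact (hroot t ht).choose_spec.1
  have hRp : ∀ t, nr_T z₁ ≤ t → ∀ z ∈ ball ((t : ℂ) * I) (t - 1 / t), R t z ^ n = f z := by
    intro t ht
    simp only [hR, dif_pos ht]
    exact (hroot t ht).choose_spec.2.1
  have hR1 : ∀ t, nr_T z₁ ≤ t → R t z₁ = w₁ := by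
    intro t ht
    simp only [hR, dif_pos ht]
    exact (hroot t ht).choose_spec.2.2
  -- compatibility
  have hcompat : ∀ t s, nr_T z₁ ≤ t → nr_T z₁ ≤ s →
      EqOn (R t) (R s) (ball ((t : ℂ) * I) (t - 1 / t) ∩ ball ((s : ℂ) * I) (s - 1 / s)) := by
    intro t s ht hs
    refine nr_root_unique (isOpen_ball.inter isOpen_ball)
      ((convex_ball _ _).inter (convex_ball _ _)).isPreconnected hn
      ((hRd t ht).mono inter_subset_left) ((hRd s hs).mono inter_subset_right)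
      (fun z hz => by rw [hRp t ht z hz.1, hRp s hs z hz.2])
      ⟨nr_mem_ball_of_T_le hz₁ ht, nr_mem_ball_of_T_le hz₁ hs⟩ ?_ ?_
    · rw [hR1 t ht, hR1 s hs]
    · rw [hR1 t ht]; exact hw₁ne
  set τ : ℂ → ℝ := fun z => max (nr_T z) (nr_T z₁) with hτ
  have hτ1 : ∀ z, nr_T z₁ ≤ τ z := fun z => le_max_right _ _
  have hτz : ∀ z, nr_T z ≤ τ z := fun z => le_max_left _ _
  set h : ℂ → ℂ := fun z => R (τ z) z with hh
  -- `h` agrees with `R (τ z₀)` near `z₀`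
  have hloc : ∀ z₀ ∈ nr_H, ∀ z ∈ ball ((τ z₀ : ℂ) * I) (τ z₀ - 1 / τ z₀), h z = R (τ z₀) z := by
    intro z₀ _ z hz
    have hzH : z ∈ nr_H :=
      (ball_subset_closedBall.trans (nr_closedBall_subset
        (lt_of_lt_of_le (nr_one_lt_T z₁) (hτ1 z₀)))) hz
    exact hcompat (τ z) (τ z₀) (hτ1 z) (hτ1 z₀) ⟨nr_mem_ball_of_T_le hzH (hτz z), hz⟩
  refine ⟨h, fun z₀ hz₀ => ?_, fun z₀ hz₀ => ?_⟩
  · have hz₀B : z₀ ∈ ball ((τ z₀ : ℂ) * I) (τ z₀ - 1 / τ z₀) := nr_mem_ball_of_T_le hz₀ (hτz z₀)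
    have h1 : DifferentiableAt ℂ (R (τ z₀)) z₀ :=
      (hRd _ (hτ1 z₀)).differentiableAt (isOpen_ball.mem_nhds hz₀B)
    have h2 : h =ᶠ[𝓝 z₀] R (τ z₀) := by
      filter_upwards [isOpen_ball.mem_nhds hz₀B] with z hz
      exact hloc z₀ hz₀ z hz
    exact (h1.congr_of_eventuallyEq h2).differentiableWithinAt
  · exact hRp _ (hτ1 z₀) z₀ (nr_mem_ball_of_T_le hz₀ (hτz z₀))

end Fermat.Agent.JT
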