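/-
JT (Jacobian tower), stage T1, node G1a: holomorphic `n`-th roots of functions on `ℍ`.
-/
import Mathlib
import Fermat.Agent.JT.Root.UpperHalf

set_option autoImplicit false

open Complex Metric Set Filter Topology UpperHalfPlane
open scoped Manifold

namespace Fermat.Agent.JT

theorem nr_H_eq : nr_H = {z : ℂ | 0 < z.im} := rfl

/-- `nr_OrdDvd` in terms of Mathlib's analytic order -/
theorem nr_ordDvd_iff {n : ℕ} {f : ℂ → ℂ} {z₀ : ℂ} (hf : AnalyticAt ℂ f z₀) :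
    nr_OrdDvd n f z₀ ↔ ∃ k : ℕ, analyticOrderAt f z₀ = ((n * k : ℕ) : ℕ∞) := by
  constructor
  · rintro ⟨k, G, hG, hG0, hfG⟩
    refine ⟨k, hf.analyticOrderAt_eq_natCast.mpr ⟨G, hG, hG0, ?_⟩⟩
    filter_upwards [hfG] with z hz
    rw [hz, smul_eq_mul]
  · rintro ⟨k, hk⟩
    obtain ⟨G, hG, hG0, hfG⟩ := hf.analyticOrderAt_eq_natCast.mp hk
    refine ⟨k, G, hG, hG0, ?_⟩
    filter_upwards [hfG] with z hz
    rw [hz, smul_eq_mul]

/-- **holomorphic `n`-th roots on `ℍ`**: a holomorphic function on `ℍ`, not identically zero, all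
of whose zeros have order divisible by `n`, is the `n`-th power of a holomorphic function. -/
theorem nr_exists_root_uhp {n : ℕ} (hn : n ≠ 0) {f : ℍ → ℂ} (hf : MDiff f) {z₁ : ℍ}
    (hfz₁ : f z₁ ≠ 0) (hord : ∀ z : ℍ, nr_OrdDvd n (f ∘ ofComplex) (z : ℂ)) :
    ∃ h : ℍ → ℂ, MDiff h ∧ ∀ z, h z ^ n = f z := by
  have hF : DifferentiableOn ℂ (f ∘ ofComplex) nr_H := UpperHalfPlane.mdifferentiable_iff.mp hf
  have h1 : (f ∘ ofComplex) (z₁ : ℂ) ≠ 0 := by
    simpa [Function.comp, ofComplex_apply] using hfz₁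
  obtain ⟨H, hHd, hHp⟩ := nr_exists_root_H hn hF (z₁ := (z₁ : ℂ)) z₁.im_pos h1
    (fun z hz => hord ⟨z, hz⟩)
  refine ⟨fun z => H (z : ℂ), ?_, fun z => ?_⟩
  · rw [UpperHalfPlane.mdifferentiable_iff]
    refine hHd.congr fun z hz => ?_
    simp only [Function.comp, ofComplex_apply_of_im_pos hz]
  · have := hHp (z : ℂ) z.im_pos
    simpa [Function.comp, ofComplex_apply] using this

end Fermat.Agent.JT
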